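/-
ISOG / (P3), part (T4) (helper3): **the `p`-torsion is not contained in the identity component at a
node**, by counting with the division polynomial.

`W : y² = x³ + a x² + b x` over an algebraically closed field of characteristic `0`, `v : QVal K`
with `ord a ≥ 0` and `ord b = h > 0`.

* `mz2k_is_preΨ'_eval_zero` : `ord Ψ_n(0) = (n² - 1)/4 · h` for odd `n` (in fact
  `Ψ_n(0) = ± b^((n² - 1)/4)`, by the recursion of the division polynomials at the `2`-torsion point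
  `(0, 0)`);
* `mz2k_sum_ord` : `∑_{T ∈ E[p] ∖ 0} ord x(T) = (p² - 1)/2 · h - 2 ord p` for odd `p`;
* `mz2k_exists_off` : if `4 ord p < (p² - 1) h` (e.g. `ord p = 0`, or `ord p = 1 ≤ h` and `p ≥ 3`)
  some `p`-torsion point `T` has `fP v h T ≠ 0`, i.e. `0 < ord x(T)`: it is not in the identity
  component.
-/
import Mathlib
import Fermat.Agent.Lib.Delta.Peu.Depth
import Fermat.Agent.Lib.S13.AtTwo.Node2

set_option autoImplicit false
set_option linter.unusedSectionVars false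
set_option linter.unusedVariables false

open WeierstrassCurve WeierstrassCurve.Affine Polynomial

namespace Fermat.Agent.Mazur2

open Fermat.Agent.S05Lib Fermat.Agent.S13Lib Fermat.Agent.Delta

section PsiZero

variable {K : Type*} [Field K] {v : QVal K} {W : WeierstrassCurve K} {a b : K}

/-- **`ord Ψ_n(0) = (n² - 1)/4 · ord b`** for odd `n` -/
theorem mz2k_is_preΨ'_eval_zero (hW : IsLeg W a b) {h : ℚ} (hb : v.Is b h) :
    ∀ n : ℕ, Odd n → v.Is ((W.preΨ' n).eval 0) ((((n : ℚ) ^ 2 - 1) / 4) * h) := by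
  intro n
  induction n using Nat.strong_induction_on with
  | _ n ih =>
    intro hn
    by_cases h1 : n = 1
    · subst h1
      rw [WeierstrassCurve.preΨ'_one, eval_one]
      exact QVal.is_one.congr (by norm_num)
    by_cases h3 : n = 3
    · subst h3
      rw [WeierstrassCurve.preΨ'_three, dlp_Ψ₃_eval_zero hW]
      exact (hb.sq).neg.congr (by norm_num)
    · -- `n = 2 (m + 2) + 1`
      obtain ⟨k, hk⟩ := hn
      obtain ⟨m, rfl⟩ : ∃ m, k = m + 2 := ⟨k - 2, by omega⟩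
      subst hk
      rw [WeierstrassCurve.preΨ'_odd, eval_sub, eval_mul, eval_mul, eval_mul, eval_mul, eval_pow,
        eval_pow]
      by_cases hm : Even m
      · rw [if_pos hm, if_pos hm, eval_pow, dlp_Ψ₂Sq_eval_zero hW, eval_one]
        have hodd1 : Odd (m + 1) := by
          obtain ⟨j, hj⟩ := hm
          exact ⟨j, by omega⟩
        have hodd3 : Odd (m + 3) := by
          obtain ⟨j, hj⟩ := hm
          exact ⟨j + 1, by omega⟩
        have i1 := ih (m + 1) (by omega) hodd1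
        have i3 := ih (m + 3) (by omega) hodd3
        have e : (W.preΨ' (m + 4)).eval 0 * (W.preΨ' (m + 2)).eval 0 ^ 3 * 0 ^ 2 -
            (W.preΨ' (m + 1)).eval 0 * (W.preΨ' (m + 3)).eval 0 ^ 3 * 1 =
            -((W.preΨ' (m + 1)).eval 0 * (W.preΨ' (m + 3)).eval 0 ^ 3) := by ring
        rw [e]
        refine (i1.mul (i3.pow 3)).neg.congr ?_
        push_cast
        ring
      · rw [if_neg hm, if_neg hm, eval_pow, dlp_Ψ₂Sq_eval_zero hW, eval_one]
        have hmo := Nat.not_even_iff_odd.mp hm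
        have hodd2 : Odd (m + 2) := by
          obtain ⟨j, hj⟩ := hmo
          exact ⟨j + 1, by omega⟩
        have hodd4 : Odd (m + 4) := by
          obtain ⟨j, hj⟩ := hmo
          exact ⟨j + 2, by omega⟩
        have hm1 : 1 ≤ m := by
          obtain ⟨j, hj⟩ := hmo
          omega
        have i2 := ih (m + 2) (by omega) hodd2
        have i4 := ih (m + 4) (by omega) hodd4
        have e : (W.preΨ' (m + 4)).eval 0 * (W.preΨ' (m + 2)).eval 0 ^ 3 * 1 -
            (W.preΨ' (m + 1)).eval 0 * (W.preΨ' (m + 3)).eval 0 ^ 3 * 0 ^ 2 =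
            (W.preΨ' (m + 4)).eval 0 * (W.preΨ' (m + 2)).eval 0 ^ 3 := by ring
        rw [e]
        refine (i4.mul (i2.pow 3)).congr ?_
        push_cast
        ring

end PsiZero

section Count

variable {K : Type*} [Field K] [DecidableEq K] [IsAlgClosed K] [CharZero K] {v : QVal K}
  {W : WeierstrassCurve K} {a b : K}

/-- **`∑_{T ∈ E[p] ∖ 0} ord x(T) = (p² - 1)/2 · h - 2 ord p`** -/
theorem mz2k_sum_ord (hW : IsLeg W a b) (hb0 : b ≠ 0) (hab : a ^ 2 - 4 * b ≠ 0) {h : ℚ}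
    (hb : v.Is b h) {p : ℕ} (hp : Odd p) (Vp : Finset W.toAffine.Point)
    (hVp : ∀ T, T ∈ Vp ↔ p • T = 0) :
    ∑ T ∈ Vp.erase 0, v.ord (xc T) = (((p : ℚ) ^ 2 - 1) / 2) * h - 2 * v.ord (p : K) := by
  have hx₀ : ∀ T ∈ Vp.erase 0, (0 : K) - xc T ≠ 0 := by
    intro T hT
    rw [zero_sub]
    exact neg_ne_zero.mpr (xc_ne_zero_of_odd_torsion hW hp
      ((hVp T).mp (Finset.mem_of_mem_erase hT)) (Finset.ne_of_mem_erase hT))
  obtain ⟨-, hord⟩ := dlp_two_ord_preΨ'_eval (v := v) hW hb0 hab hp Vp hVp hx₀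
  rw [(mz2k_is_preΨ'_eval_zero hW hb p hp).2] at hord
  have hsum : ∑ T ∈ Vp.erase 0, v.ord ((0 : K) - xc T) = ∑ T ∈ Vp.erase 0, v.ord (xc T) :=
    Finset.sum_congr rfl fun T _ => by rw [zero_sub, v.ord_neg]
  rw [hsum] at hord
  linarith

/-- **some `p`-torsion point is off the identity component** -/
theorem mz2k_exists_off (hW : IsLeg W a b) (hb0 : b ≠ 0) (hab : a ^ 2 - 4 * b ≠ 0) {h : ℚ}
    (hh : 0 < h) (hb : v.Is b h) {p : ℕ} (hp : Odd p)
    (hvp : 4 * v.ord (p : K) < ((p : ℚ) ^ 2 - 1) * h) (Vp : Finset W.toAffine.Point)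
    (hVp : ∀ T, T ∈ Vp ↔ p • T = 0) :
    ∃ T : W.toAffine.Point, p • T = 0 ∧ fP v h T ≠ 0 := by
  by_contra hcon
  push Not at hcon
  have hle : ∀ T ∈ Vp.erase 0, v.ord (xc T) ≤ 0 := by
    intro T hT
    have hT0 : T ≠ 0 := Finset.ne_of_mem_erase hT
    have hTp : p • T = 0 := (hVp T).mp (Finset.mem_of_mem_erase hT)
    have h0 := hcon T hTp
    rcases T with _ | ⟨x, y, hxy⟩
    · exact absurd rfl hT0
    · exact ((AtTwo.fP_eq_zero_iff hh hxy).mp h0).2
  have hsum := mz2k_sum_ord (v := v) hW hb0 hab hb hp Vp hVp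
  have hneg : ∑ T ∈ Vp.erase 0, v.ord (xc T) ≤ 0 := Finset.sum_nonpos hle
  linarith

/-- the case `ord p = 0` (residue characteristic `≠ p`) -/
theorem mz2k_exists_off_of_unit (hW : IsLeg W a b) (hb0 : b ≠ 0) (hab : a ^ 2 - 4 * b ≠ 0) {h : ℚ}
    (hh : 0 < h) (hb : v.Is b h) {p : ℕ} (hp : Odd p) (hp3 : 3 ≤ p) (hvp : v.ord (p : K) ≤ 0)
    (Vp : Finset W.toAffine.Point) (hVp : ∀ T, T ∈ Vp ↔ p • T = 0) :
    ∃ T : W.toAffine.Point, p • T = 0 ∧ fP v h T ≠ 0 := by
  refine mz2k_exists_off hW hb0 hab hh hb hp ?_ Vp hVp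
  have h3 : (3 : ℚ) ≤ p := by exact_mod_cast hp3
  have h8 : (8 : ℚ) ≤ (p : ℚ) ^ 2 - 1 := by nlinarith
  nlinarith

/-- the case `ord p ≤ 1 ≤ h` (residue characteristic `p`, normalised valuation) -/
theorem mz2k_exists_off_of_le_one (hW : IsLeg W a b) (hb0 : b ≠ 0) (hab : a ^ 2 - 4 * b ≠ 0)
    {h : ℚ} (hh : 1 ≤ h) (hb : v.Is b h) {p : ℕ} (hp : Odd p) (hp3 : 3 ≤ p)
    (hvp : v.ord (p : K) ≤ 1) (Vp : Finset W.toAffine.Point) (hVp : ∀ T, T ∈ Vp ↔ p • T = 0) :
    ∃ T : W.toAffine.Point, p • T = 0 ∧ fP v h T ≠ 0 := by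
  refine mz2k_exists_off hW hb0 hab (by linarith) hb hp ?_ Vp hVp
  have h3 : (3 : ℚ) ≤ p := by exact_mod_cast hp3
  have h8 : (8 : ℚ) ≤ (p : ℚ) ^ 2 - 1 := by nlinarith
  nlinarith

end Count

end Fermat.Agent.Mazur2
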