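/-
ISOG / (P3), the DICTIONARY (helper9): for an integral point of a Weierstrass curve `E` with
multiplicative reduction, Legendre roots `e₁, e₂, e₃` (`e₁ ≡ e₂` the node),

  `InZeroComponentAt`  ⟺  one of the partial derivatives is a unit (`S58.S58lNs`)
                       ⟺  `ord (x - e₁) ≤ 0`  ⟺  `fP = 0` on the Legendre form `lreVC E e₁ • E`.

* `mz2e_sing_of_gt` : (NEW direction) a point reducing to the node has both partial derivatives in
  the maximal ideal;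
* `mz2e_ns_iff_le` : `S58lNs A E (x, y) ↔ ord (x - e₁) ≤ 0`;
* `mz2e_ns_iff_fP` : `S58lNs A E (x, y) ↔ fP v h (vcPointEquiv (lreVC E e₁) E (x, y)) = 0`;
* `mz2e_inZero_iff_ns` : `W.InZeroComponentAt A (x, y) ↔ S58lNs A (W_ℚ̄) (x, y)` for an integral
  point of a curve over `ℤ`.
-/
import Fermat.Agent.Lib.S58.LocalFinal
import Fermat.Agent.Lib.Mazur.G.Loc.Local

set_option autoImplicit false
set_option linter.unusedSectionVars false
set_option linter.unusedVariables false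

open WeierstrassCurve WeierstrassCurve.Affine
open scoped WeierstrassCurve.Affine

namespace Fermat.Agent.Mazur2

open Fermat.Agent.S05Lib Fermat.Agent.LR Fermat.Agent.X015 Fermat.Agent.S13Lib.AtTwo
  Fermat.Agent.S58 Fermat.Agent.Mazur

section Abs

variable {K : Type*} [Field K] {A : ValuationSubring K} {v : QVal K}

theorem mz2e_gt_of_sq_gt {z : K} {s : ℚ} (h : v.Gt (z ^ 2) (2 * s)) : v.Gt z s := by
  rcases QVal.le_or_gt (v := v) z s with hle | hgt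
  · exfalso
    have := hle.mul hle
    rw [← sq] at this
    exact this.not_gt h (by linarith)
  · exact hgt

/-- units for `v` are units for `A` -/
theorem mz2e_val_eq_one_of_is (hv : LreVal A v) {z : K} (hz : v.Is z 0) : A.valuation z = 1 := by
  refine le_antisymm ((A.valuation_le_one_iff z).mpr (hv.mem_of_ge hz.ge)) ?_
  by_contra hlt
  push Not at hlt
  exact hz.not_gt ((hv.gt_iff z).mpr hlt) le_rfl

/-- **a point reducing to the node is a singular point of the reduction**: if `ord (x - e₁) > 0`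
both partial derivatives `ψ = 2 y + a₁ x + a₃`, `φ = 3 x² + 2 a₂ x + a₄ - a₁ y` are in the maximal
ideal -/
theorem mz2e_sing_of_gt (hv : LreVal A v) {E : WeierstrassCurve K} (ha₁ : E.a₁ ∈ A)
    (ha₂ : E.a₂ ∈ A) (ha₃ : E.a₃ ∈ A) (ha₄ : E.a₄ ∈ A) {e₁ e₂ e₃ : K}
    (hr : LreRoots E e₁ e₂ e₃) (h20 : (2 : K) ≠ 0) {h : ℚ}
    (hc : v.Is (4 * (-((e₂ - e₁) + (e₃ - e₁)))) 0) (hb : v.Is ((e₂ - e₁) * (e₃ - e₁)) h)
    (hh : 0 < h) (hΔ : v.Gt E.Δ 0) {x y : K} (hxy : E.toAffine.Equation x y)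
    (hx : x ∈ A) (hy : y ∈ A) (hX : v.Gt (x - e₁) 0) :
    v.Gt (2 * y + E.a₁ * x + E.a₃) 0 ∧
      v.Gt (3 * x ^ 2 + 2 * E.a₂ * x + E.a₄ - E.a₁ * y) 0 := by
  have m2 : (2 : K) ∈ A := s58l_ofNat_mem A 2
  have m3 : (3 : K) ∈ A := s58l_ofNat_mem A 3
  have h2 : v.Ge (2 : K) 0 := hv.ge_of_mem m2
  have h3 : v.Ge (3 : K) 0 := hv.ge_of_mem m3
  obtain ⟨hb₂, hb₄, hb₆⟩ := hr
  have hxy' := hxy
  rw [Affine.equation_iff] at hxy
  simp only [WeierstrassCurve.b₂, WeierstrassCurve.b₄, WeierstrassCurve.b₆] at hb₂ hb₄ hb₆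
  obtain ⟨i2, hκ⟩ := s58l_is_two h2 h20
  have i4 := s58l_is_four (v := v) h20
  have i16 := s58l_is_sixteen (v := v) h20
  set κ := v.ord (2 : K) with hκ_def
  have hψA : 2 * y + E.a₁ * x + E.a₃ ∈ A :=
    add_mem (add_mem (mul_mem m2 hy) (mul_mem ha₁ hx)) ha₃
  have hφA : 3 * x ^ 2 + 2 * E.a₂ * x + E.a₄ - E.a₁ * y ∈ A :=
    sub_mem (add_mem (add_mem (mul_mem m3 (pow_mem hx 2)) (mul_mem (mul_mem m2 ha₂) hx)) ha₄)
      (mul_mem ha₁ hy)
  set ψ := 2 * y + E.a₁ * x + E.a₃ with hψ_def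
  set φ := 3 * x ^ 2 + 2 * E.a₂ * x + E.a₄ - E.a₁ * y with hφ_def
  set c := 4 * (-((e₂ - e₁) + (e₃ - e₁))) with hc_def
  have hξ : v.Gt (4 * (x - e₁)) (2 * κ) := by
    have := i4.ge.mul_gt hX
    simpa using this
  have hβ : v.Is (16 * ((e₂ - e₁) * (e₃ - e₁))) (h + 4 * κ) := (i16.mul hb).congr (by ring)
  set ξ := 4 * (x - e₁) with hξ_def
  set β := 16 * ((e₂ - e₁) * (e₃ - e₁)) with hβ_def
  have id1 : 16 * ψ ^ 2 = ξ ^ 3 + c * ξ ^ 2 + β * ξ := by
    rw [hψ_def, hξ_def, hc_def, hβ_def]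
    linear_combination 64 * hxy + 16 * x ^ 2 * hb₂ + 32 * x * hb₄ + 16 * hb₆
  have id2 : 3 * ξ ^ 2 + 2 * c * ξ + β = 8 * E.a₁ * ψ + 16 * φ := by
    rw [hψ_def, hφ_def, hξ_def, hc_def, hβ_def]
    linear_combination (-8) * x * hb₂ - 8 * hb₄
  have hξξ : v.Gt (ξ * ξ) (4 * κ) := (hξ.mul_ge hξ.ge).mono (by linarith)
  -- `ψ`
  have t1 : v.Gt (ξ ^ 3) (4 * κ) := by
    have := hξξ.mul_ge hξ.ge
    have e : ξ * ξ * ξ = ξ ^ 3 := by ring
    rw [e] at this
    exact this.mono (by linarith)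
  have t2 : v.Gt (c * ξ ^ 2) (4 * κ) := by
    have := hc.ge.mul_gt hξξ
    have e : c * (ξ * ξ) = c * ξ ^ 2 := by ring
    rw [e] at this
    exact this.mono (by linarith)
  have t3 : v.Gt (β * ξ) (4 * κ) := (hβ.ge.mul_gt hξ).mono (by linarith)
  have G1 : v.Gt (16 * ψ ^ 2) (4 * κ) := by
    rw [id1]
    exact (t1.add t2).add t3
  have hψ2 : v.Gt (ψ ^ 2) (2 * 0) := by
    have := G1.div_is i16
    have e : 16 * ψ ^ 2 / 16 = ψ ^ 2 := by
      have h16 : (16 : K) ≠ 0 := i16.1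
      field_simp
    rw [e] at this
    exact this.mono (by linarith)
  have gψ : v.Gt ψ 0 := mz2e_gt_of_sq_gt hψ2
  refine ⟨gψ, ?_⟩
  -- `φ`
  rcases hκ.lt_or_eq with hκpos | hκ0
  · -- residue characteristic `2`: the discriminant
    by_contra hcon
    have hφi : v.Is φ 0 := by
      by_contra hni
      exact hcon (s58l_gt_of_ge_of_not_is (hv.ge_of_mem hφA) hni)
    have hg : (0 : K) = x ^ 3 + E.a₂ * x ^ 2 + E.a₄ * x + E.a₆ -
        (y ^ 2 + E.a₁ * x * y + E.a₃ * y) := by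
      linear_combination hxy
    have ha₂' : E.a₂ + 3 * x ∈ A := add_mem ha₂ (mul_mem m3 hx)
    have hBA : E.a₁ ^ 2 + 4 * (E.a₂ + 3 * x) ∈ A := by
      have m4 : (4 : K) ∈ A := s58l_ofNat_mem A 4
      exact add_mem (pow_mem ha₁ 2) (mul_mem m4 ha₂')
    have key := s58l_disc_eq E x y ψ φ 0 (E.a₁ ^ 2 + 4 * (E.a₂ + 3 * x)) (E.a₂ + 3 * x)
      rfl rfl hg rfl rfl
    rw [zero_mul, add_zero] at key
    have hBe : E.a₁ ^ 2 + 4 * (E.a₂ + 3 * x) = c + 3 * ξ := by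
      rw [hc_def, hξ_def]
      linear_combination hb₂
    set B := E.a₁ ^ 2 + 4 * (E.a₂ + 3 * x) with hB_def
    have hBi : v.Is B 0 := by
      rw [hBe]
      refine hc.add_gt ?_
      have := h3.mul_gt (hξ.mono (by linarith : (0 : ℚ) ≤ 2 * κ))
      simpa using this
    have hb4A : 2 * φ + E.a₁ * ψ ∈ A := add_mem (mul_mem m2 hφA) (mul_mem ha₁ hψA)
    have hS₁ : B ^ 2 * E.a₁ * φ - B ^ 2 * (E.a₂ + 3 * x) * ψ - 27 * ψ ^ 3 +
        9 * B * (2 * φ + E.a₁ * ψ) * ψ - 8 * (2 * φ + E.a₁ * ψ) ^ 2 * E.a₁ ∈ A := by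
      have m27 : (27 : K) ∈ A := s58l_ofNat_mem A 27
      have m9 : (9 : K) ∈ A := s58l_ofNat_mem A 9
      have m8 : (8 : K) ∈ A := s58l_ofNat_mem A 8
      exact sub_mem (add_mem (sub_mem (sub_mem (mul_mem (mul_mem (pow_mem hBA 2) ha₁) hφA)
        (mul_mem (mul_mem (pow_mem hBA 2) ha₂') hψA)) (mul_mem m27 (pow_mem hψA 3)))
        (mul_mem (mul_mem (mul_mem m9 hBA) hb4A) hψA)) (mul_mem (mul_mem m8 (pow_mem hb4A 2)) ha₁)
    have s1 : v.Gt (ψ * (B ^ 2 * E.a₁ * φ - B ^ 2 * (E.a₂ + 3 * x) * ψ - 27 * ψ ^ 3 +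
        9 * B * (2 * φ + E.a₁ * ψ) * ψ - 8 * (2 * φ + E.a₁ * ψ) ^ 2 * E.a₁)) 0 := by
      have := gψ.mul_ge (hv.ge_of_mem hS₁)
      simpa using this
    have s2 : v.Is (B ^ 2 * φ) 0 := by
      have := hBi.sq.mul hφi
      simpa using this
    have s3 : v.Gt (16 * (2 * φ + E.a₁ * ψ) ^ 2) 0 := by
      have := (i16.gt (by linarith : (0 : ℚ) < 4 * κ)).mul_ge (hv.ge_of_mem (pow_mem hb4A 2))
      simpa using this
    have s4 : v.Is (φ * (B ^ 2 * φ - 16 * (2 * φ + E.a₁ * ψ) ^ 2)) 0 := by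
      have := hφi.mul (s2.sub_gt s3)
      simpa using this
    have s5 : v.Is E.Δ 0 := by
      rw [key]
      exact s4.add_gt' s1
    exact s5.not_gt hΔ le_rfl
  · -- odd residue characteristic: the second identity
    have hκ0' : κ = 0 := hκ0.symm
    have u1 : v.Gt (3 * ξ ^ 2) 0 := by
      have := h3.mul_gt hξξ
      have e : 3 * (ξ * ξ) = 3 * ξ ^ 2 := by ring
      rw [e] at this
      exact this.mono (by linarith)
    have u2 : v.Gt (2 * c * ξ) 0 := by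
      have := (h2.mul hc.ge).mul_gt hξ
      exact this.mono (by linarith)
    have u3 : v.Gt β 0 := hβ.gt (by linarith)
    have u4 : v.Gt (8 * E.a₁ * ψ) 0 := by
      have m8 : (8 : K) ∈ A := s58l_ofNat_mem A 8
      have := (hv.ge_of_mem (mul_mem m8 ha₁)).mul_gt gψ
      simpa using this
    have u5 : v.Gt (16 * φ) 0 := by
      have e : 16 * φ = 3 * ξ ^ 2 + 2 * c * ξ + β - 8 * E.a₁ * ψ := by rw [id2]; ring
      rw [e]
      exact ((u1.add u2).add u3).sub u4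
    have := u5.div_is i16
    have e : 16 * φ / 16 = φ := by
      have h16 : (16 : K) ≠ 0 := i16.1
      field_simp
    rw [e] at this
    exact this.mono (by linarith)

/-- **the dictionary on the curve**, valuation form: for an integral point, "one of the partial
derivatives is a unit" means `ord (x - e₁) ≤ 0` -/
theorem mz2e_ns_iff_le (hv : LreVal A v) {E : WeierstrassCurve K} (ha₁ : E.a₁ ∈ A)
    (ha₂ : E.a₂ ∈ A) (ha₃ : E.a₃ ∈ A) (ha₄ : E.a₄ ∈ A) {e₁ e₂ e₃ : K}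
    (hr : LreRoots E e₁ e₂ e₃) (h20 : (2 : K) ≠ 0) {h : ℚ}
    (hc : v.Is (4 * (-((e₂ - e₁) + (e₃ - e₁)))) 0) (hb : v.Is ((e₂ - e₁) * (e₃ - e₁)) h)
    (hh : 0 < h) (hΔ : v.Gt E.Δ 0) {x y : K} (hxy : E.toAffine.Nonsingular x y)
    (hx : x ∈ A) (hy : y ∈ A) :
    S58lNs A E (Point.some x y hxy) ↔ v.Le (x - e₁) 0 := by
  have m2 : (2 : K) ∈ A := s58l_ofNat_mem A 2
  have m3 : (3 : K) ∈ A := s58l_ofNat_mem A 3
  have h2 : v.Ge (2 : K) 0 := hv.ge_of_mem m2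
  rw [s58lNs_some]
  have hψA : 2 * y + E.a₁ * x + E.a₃ ∈ A :=
    add_mem (add_mem (mul_mem m2 hy) (mul_mem ha₁ hx)) ha₃
  have hφA : 3 * x ^ 2 + 2 * E.a₂ * x + E.a₄ - E.a₁ * y ∈ A :=
    sub_mem (add_mem (add_mem (mul_mem m3 (pow_mem hx 2)) (mul_mem (mul_mem m2 ha₂) hx)) ha₄)
      (mul_mem ha₁ hy)
  constructor
  · intro hns
    rcases QVal.le_or_gt (v := v) (x - e₁) 0 with hle | hgt
    · exact hle
    · exfalso
      obtain ⟨g1, g2⟩ := mz2e_sing_of_gt hv ha₁ ha₂ ha₃ ha₄ hr h20 hc hb hh hΔ hxy.1 hx hy hgt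
      rcases hns with h1 | h1
      · have := (hv.gt_iff _).mp g1
        rw [h1] at this
        exact lt_irrefl _ this
      · have := (hv.gt_iff _).mp g2
        rw [h1] at this
        exact lt_irrefl _ this
  · intro hle
    rcases s58l_leg_ns hr h2 h20 (hv.ge_of_mem ha₁) hc hb hh hxy.1 (hv.ge_of_mem hψA)
      (hv.ge_of_mem hφA) hle with h1 | h1
    · exact Or.inl (mz2e_val_eq_one_of_is hv h1)
    · exact Or.inr (mz2e_val_eq_one_of_is hv h1)

variable [DecidableEq K]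

/-- **the dictionary on the curve**: for an integral point, "one of the partial derivatives is a
unit" means "in the identity component of the Legendre form" -/
theorem mz2e_ns_iff_fP (hv : LreVal A v) {E : WeierstrassCurve K} (ha₁ : E.a₁ ∈ A)
    (ha₂ : E.a₂ ∈ A) (ha₃ : E.a₃ ∈ A) (ha₄ : E.a₄ ∈ A) {e₁ e₂ e₃ : K}
    (hr : LreRoots E e₁ e₂ e₃) (h20 : (2 : K) ≠ 0) {h : ℚ}
    (hc : v.Is (4 * (-((e₂ - e₁) + (e₃ - e₁)))) 0) (hb : v.Is ((e₂ - e₁) * (e₃ - e₁)) h)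
    (hh : 0 < h) (hΔ : v.Gt E.Δ 0) {x y : K} (hxy : E.toAffine.Nonsingular x y)
    (hx : x ∈ A) (hy : y ∈ A) :
    S58lNs A E (Point.some x y hxy) ↔
      fP v h (vcPointEquiv (lreVC E e₁) E (Point.some x y hxy)) = 0 := by
  obtain ⟨h', e⟩ := vcPointEquiv_some (lreVC E e₁) E hxy
  have hxe : vcXinv (lreVC E e₁) x = x - e₁ := by
    simp [vcXinv, lreVC]
  rw [e, fP_eq_zero_iff hh h', hxe]
  exact mz2e_ns_iff_le hv ha₁ ha₂ ha₃ ha₄ hr h20 hc hb hh hΔ hxy hx hy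

end Abs

section Qbar

local notation "Qb" => AlgebraicClosure ℚ

/-- **the dictionary with the Prelude predicate**: for an integral point of a curve over `ℤ`,
`InZeroComponentAt` means that one of the partial derivatives is a unit -/
theorem mz2e_inZero_iff_ns (W : WeierstrassCurve ℤ) (A : ValuationSubring Qb) {x y : Qb}
    (h : ((s58E W)⁄Qb).toAffine.Nonsingular x y) (hx : x ∈ A) (hy : y ∈ A) :
    W.InZeroComponentAt A (Point.some x y h) ↔ S58lNs A ((s58E W)⁄Qb) (Point.some x y h) := by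
  rw [s58lNs_some]
  have heq : (W.map (Int.castRingHom ↥A)).toAffine.Equation (⟨x, hx⟩ : ↥A) ⟨y, hy⟩ := by
    apply mzgl_equation_of_map
    rw [mzgl_map_subtype]
    exact h.1
  have key := mzgl_ns_iff (W.map (Int.castRingHom ↥A)) heq
  rw [mzgl_map_subtype, mzgl_map_residue] at key
  constructor
  · rintro (h0 | ⟨x', y', h', e, hx' | ⟨hx', hy', hns⟩⟩)
    · exact absurd h0 (Point.some_ne_zero _)
    · obtain ⟨rfl, rfl⟩ := Point.some.inj e
      exact absurd hx hx'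
    · obtain ⟨rfl, rfl⟩ := Point.some.inj e
      exact key.mp hns
  · intro hns
    exact Or.inr ⟨x, y, h, rfl, Or.inr ⟨hx, hy, key.mpr hns⟩⟩

end Qbar

end Fermat.Agent.Mazur2
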