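/-
ISOG / (P3), two Galois lemmas (helper9).

* `mz2e_ord_decomp` : an element of the decomposition group of `A` preserves the `ℚ`-valued
  valuation attached to `A` (`S05Lib.QValFor`);
* `mz2e_cycloExp_frob` : the mod `p` cyclotomic character of a Frobenius element at `r ≠ p` is `r`.
-/
import Fermat.Agent.Lib.S05.Global
import Fermat.Agent.Lib.S05.QValQbar
import Fermat.Agent.Lib.TW.TWPrimes.Cyclo
import Fermat.Agent.Lib.CFT.S14.LevelOfKernel

set_option autoImplicit false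
set_option linter.unusedSectionVars false
set_option linter.unusedVariables false

namespace Fermat.Agent.Mazur2

open Fermat.Agent.S05Lib

local notation "Qb" => AlgebraicClosure ℚ
local notation "GQ" => (AlgebraicClosure ℚ ≃ₐ[ℚ] AlgebraicClosure ℚ)

section Ord

variable {A : ValuationSubring Qb} {q : ℕ} {v : QVal Qb}

/-- a field automorphism over `ℚ` mapping `A` into itself does not decrease `ord` -/
theorem mz2e_ord_le_of_map_mem (hv : QValFor A q v) (hq : q.Prime) {τ : GQ}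
    (hτ : ∀ y ∈ A, τ y ∈ A) {x : Qb} (hx : x ≠ 0) : v.ord x ≤ v.ord (τ x) := by
  have hq0 : ((q : ℕ) : Qb) ≠ 0 := by exact_mod_cast hq.ne_zero
  set c := v.ord ((q : ℕ) : Qb) with hc
  have hcpos : 0 < c := hv.ord_q
  set r : ℚ := v.ord x / c with hr
  have hden : (0 : ℚ) < (r.den : ℚ) := by exact_mod_cast r.den_pos
  have hrc : (r.den : ℚ) * v.ord x = (r.num : ℚ) * c := by
    have h1 : r * (r.den : ℚ) = (r.num : ℚ) := Rat.mul_den_eq_num r
    have h2 : v.ord x = r * c := by rw [hr]; field_simp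
    rw [h2]
    linear_combination c * h1
  set s₁ : ℕ := r.num.toNat with hs₁
  set s₂ : ℕ := (-r.num).toNat with hs₂
  have hs : (s₁ : ℚ) - (s₂ : ℚ) = (r.num : ℚ) := by
    have := Int.toNat_sub_toNat_neg r.num
    exact_mod_cast this
  set m : ℕ := r.den with hm
  have hτx : τ x ≠ 0 := (map_ne_zero τ).mpr hx
  -- `y = x^m q^s₂ / q^s₁` is integral
  have hy0 : x ^ m * ((q : ℕ) : Qb) ^ s₂ / ((q : ℕ) : Qb) ^ s₁ ≠ 0 :=
    div_ne_zero (mul_ne_zero (pow_ne_zero _ hx) (pow_ne_zero _ hq0)) (pow_ne_zero _ hq0)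
  have hordy : ∀ z : Qb, z ≠ 0 →
      v.ord (z ^ m * ((q : ℕ) : Qb) ^ s₂ / ((q : ℕ) : Qb) ^ s₁) =
        (m : ℚ) * v.ord z + (s₂ : ℚ) * c - (s₁ : ℚ) * c := by
    intro z hz
    rw [v.ord_div (mul_ne_zero (pow_ne_zero _ hz) (pow_ne_zero _ hq0)) (pow_ne_zero _ hq0),
      v.ord_mul' (pow_ne_zero _ hz) (pow_ne_zero _ hq0), v.ord_pow hz, v.ord_pow hq0,
      v.ord_pow hq0]
  have hyA : x ^ m * ((q : ℕ) : Qb) ^ s₂ / ((q : ℕ) : Qb) ^ s₁ ∈ A := by
    rw [hv.mem_iff]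
    right
    rw [hordy x hx]
    have : (m : ℚ) * v.ord x + (s₂ : ℚ) * c - (s₁ : ℚ) * c = 0 := by
      rw [hrc, ← hs]; ring
    rw [this]
  have hτy := hτ _ hyA
  have hτe : τ (x ^ m * ((q : ℕ) : Qb) ^ s₂ / ((q : ℕ) : Qb) ^ s₁) =
      (τ x) ^ m * ((q : ℕ) : Qb) ^ s₂ / ((q : ℕ) : Qb) ^ s₁ := by
    rw [map_div₀, map_mul, map_pow, map_pow, map_pow, map_natCast]
  rw [hτe, hv.mem_iff] at hτy
  have hτy0 : (τ x) ^ m * ((q : ℕ) : Qb) ^ s₂ / ((q : ℕ) : Qb) ^ s₁ ≠ 0 :=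
    div_ne_zero (mul_ne_zero (pow_ne_zero _ hτx) (pow_ne_zero _ hq0)) (pow_ne_zero _ hq0)
  have h0 := hτy.resolve_left hτy0
  rw [hordy (τ x) hτx] at h0
  have h1 : (m : ℚ) * v.ord x ≤ (m : ℚ) * v.ord (τ x) := by
    have : (m : ℚ) * v.ord x = (s₁ : ℚ) * c - (s₂ : ℚ) * c := by rw [hrc, ← hs]; ring
    linarith
  exact le_of_mul_le_mul_left h1 hden

/-- **the decomposition group preserves the valuation** -/
theorem mz2e_ord_decomp (hv : QValFor A q v) (hq : q.Prime) {σ : GQ}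
    (hσ : σ ∈ A.decompositionSubgroup ℚ) (x : Qb) : v.ord (σ x) = v.ord x := by
  by_cases hx : x = 0
  · rw [hx, map_zero]
  · have h1 := mz2e_ord_le_of_map_mem hv hq (τ := σ) (fun y hy => qv_decomp_mem A hσ hy) hx
    have hσ' : σ⁻¹ ∈ A.decompositionSubgroup ℚ := inv_mem hσ
    have h2 := mz2e_ord_le_of_map_mem hv hq (τ := σ⁻¹) (fun y hy => qv_decomp_mem A hσ' hy)
      ((map_ne_zero σ).mpr hx)
    have e : σ⁻¹ (σ x) = x := by
      show (σ⁻¹ * σ) x = x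
      rw [inv_mul_cancel]
      rfl
    rw [e] at h2
    exact le_antisymm h2 h1

end Ord

section Cyclo

open Fermat.Agent.CFT Fermat.Agent.CFT.Pinf

/-- **the mod `p` cyclotomic character of a Frobenius element at `r ≠ p` is `r`** -/
theorem mz2e_cycloExp_frob {p : ℕ} [hp : Fact p.Prime] {A : ValuationSubring Qb} {σ : GQ} {r : ℕ}
    (hr : r.Prime) (hrp : r ≠ p) (hA : A.LiesOverPrime r) (hσ : A.IsFrobeniusAt σ r) :
    ((ExtCitation.cycloExp p σ : ℕ) : ZMod p) = (r : ZMod p) := by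
  have : NeZero p := ⟨hp.out.ne_zero⟩
  have hζ := zetaQbar_spec p
  have hcop : Nat.Coprime p r := (Nat.coprime_primes hp.out hr).mpr (Ne.symm hrp)
  have h1 := Fermat.Agent.TW.twp_frobenius_rootOfUnity hA hσ hp.out.pos hcop hζ.pow_eq_one
  have h2 := Fermat.Agent.CFT.S14.apply_eq_pow_cycloExp p σ hζ.pow_eq_one
  rw [h1] at h2
  have key : ∀ n : ℕ, zetaQbar p ^ (n % p) = zetaQbar p ^ n := fun n => by
    conv_rhs => rw [← Nat.mod_add_div n p, pow_add, pow_mul, hζ.pow_eq_one, one_pow, mul_one]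
  have h3 : r % p = ExtCitation.cycloExp p σ % p :=
    hζ.pow_inj (Nat.mod_lt _ hp.out.pos) (Nat.mod_lt _ hp.out.pos) (by rw [key, key]; exact h2)
  exact ((ZMod.natCast_eq_natCast_iff _ _ _).mpr h3).symm

end Cyclo

end Fermat.Agent.Mazur2
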