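/-
ISOG / (P3), part (E0) + (T3) + (T5) on the LEGENDRE form (helper9).

`W : η² = x³ + a x² + b x` over a valued field `(K, v : QVal K)` with `ord (4 a) = 0`,
`ord b = h > 0`, `ord 2 ≥ 0`, `2 ≠ 0` (multiplicative reduction, the node at `(0, 0)`; NO hypothesis
on the residue characteristic).  `fP v h P = 0` (`S05Lib.fP`) says that `P` is in the identity
component.

* `mz2eZero` : the identity component `{P | fP v h P = 0}` as an `AddSubgroup` (E0);
* `mz2e_fP_map` : a map `T` on points induced by a field endomorphism `σ` preserving `ord` preserves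
  `fP`;
* `mz2e_sub_or_add` (T5) : for such a `T`, `T P - P` or `T P + P` is in the identity component;
* `mz2e_map_sub_mem` (T3) : for an inertia-like `σ` fixing a square root `γ` of `4 a`, `T P - P` is
  in the identity component for every torsion point `P` of odd order;
* `mz2e_map_sqrt_of_is_two`, `mz2e_map_sqrt` : `σ γ = γ` (residue characteristic `≠ 2`, resp.
  `a - 1/4` integral).
-/
import Fermat.Agent.Lib.S13.AtTwo.LocalMain2
import Fermat.Agent.Lib.S58.LocalCount

set_option autoImplicit false
set_option linter.unusedSectionVars false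
set_option linter.unusedVariables false

open WeierstrassCurve WeierstrassCurve.Affine

namespace Fermat.Agent.Mazur2

open Fermat.Agent.S05Lib Fermat.Agent.S13Lib.AtTwo Fermat.Agent.S58

variable {K : Type*} [Field K] [DecidableEq K]

section Abs

variable {v : QVal K} {h : ℚ} {W : WeierstrassCurve K} {a b : K}

/-- **(E0)** the identity component at the node of the Legendre form, as a subgroup -/
def mz2eZero (hW : IsLeg W a b) (hc : v.Is (4 * a) 0) (hb : v.Is b h) (hh : 0 < h)
    (h2 : v.Ge (2 : K) 0) (h20 : (2 : K) ≠ 0) : AddSubgroup W.toAffine.Point where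
  carrier := {P | fP v h P = 0}
  zero_mem' := fP_zero
  add_mem' := fun {P Q} hP hQ => (fP_add_sub_eq_zero hW hc hb hh h2 h20 hP hQ).1
  neg_mem' := fun {P} hP => by
    show fP v h (-P) = 0
    rw [fP_neg hW]
    exact hP

theorem mz2e_mem_zero (hW : IsLeg W a b) (hc : v.Is (4 * a) 0) (hb : v.Is b h) (hh : 0 < h)
    (h2 : v.Ge (2 : K) 0) (h20 : (2 : K) ≠ 0) (P : W.toAffine.Point) :
    P ∈ mz2eZero hW hc hb hh h2 h20 ↔ fP v h P = 0 := Iff.rfl

/-- a field endomorphism preserving `ord` preserves `fx` -/
theorem mz2e_fx_map {σ : K →+* K} (hord : ∀ x, v.ord (σ x) = v.ord x) (x : K) :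
    fx v h (σ x) = fx v h x := by
  unfold fx
  by_cases hx : x = 0
  · rw [hx, map_zero]
  · rw [if_neg hx, if_neg ((map_ne_zero σ).mpr hx), hord]

/-- a map on points induced by a field endomorphism preserving `ord` preserves `fP` -/
theorem mz2e_fP_map {σ : K →+* K} {T : W.toAffine.Point →+ W.toAffine.Point}
    (hmap : ∀ (x y : K) (hxy : W.toAffine.Nonsingular x y),
      ∃ h', T (Point.some x y hxy) = Point.some (σ x) (σ y) h')
    (hord : ∀ x, v.ord (σ x) = v.ord x) (P : W.toAffine.Point) :
    fP v h (T P) = fP v h P := by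
  rcases P with _ | ⟨x, y, hxy⟩
  · have e0 : (Point.zero : W.toAffine.Point) = 0 := rfl
    rw [e0, map_zero]
  · obtain ⟨h', e⟩ := hmap x y hxy
    rw [e, fP_some, fP_some, mz2e_fx_map hord]

variable (hW : IsLeg W a b) (hc : v.Is (4 * a) 0) (hb : v.Is b h) (hh : 0 < h)
  (h2 : v.Ge (2 : K) 0) (h20 : (2 : K) ≠ 0)
include hW hc hb hh h2 h20

/-- **(T5)** a map on points induced by a field endomorphism preserving `ord` acts on the group
of components by a sign -/
theorem mz2e_sub_or_add {σ : K →+* K} {T : W.toAffine.Point →+ W.toAffine.Point}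
    (hmap : ∀ (x y : K) (hxy : W.toAffine.Nonsingular x y),
      ∃ h', T (Point.some x y hxy) = Point.some (σ x) (σ y) h')
    (hord : ∀ x, v.ord (σ x) = v.ord x) (P : W.toAffine.Point) :
    fP v h (T P - P) = 0 ∨ fP v h (T P + P) = 0 :=
  s58l_sub_or_add hW hc hb hh h2 h20 (T P) P (mz2e_fP_map hmap hord P)

/-- **(T3)** an inertia-like `σ` fixing a square root of `4 a` acts trivially on the group of
components: `T P - P` is in the identity component for every torsion point of odd order -/
theorem mz2e_map_sub_mem {σ : K →+* K} {T : W.toAffine.Point →+ W.toAffine.Point}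
    (hT : InertiaLike v W σ T) {γ : K} (hγ : γ ^ 2 = 4 * a) (hσγ : σ γ = γ)
    {n : ℕ} (hodd : Odd n) {P : W.toAffine.Point} (hnP : n • P = 0) :
    fP v h (T P - P) = 0 := by
  have hh' := hh.le
  set j := fP v h P with hj
  have hj0 : 0 ≤ j := fP_nonneg hh' P
  have hjh : j ≤ h := fP_le hh' P
  obtain ⟨k, hk⟩ := nsmul_fP_mem2 hW hc hb hh h2 h20 P hnP
  rcases hj0.lt_or_eq with hpos | hzero
  · rcases hjh.lt_or_eq with hlt | heq
    · -- a point on a non-identity component of the node
      rcases P with _ | ⟨x, η, hxy⟩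
      · exfalso
        have : j = 0 := by rw [hj]; rfl
        linarith
      · have hxj : v.Is x j := by
          rw [hj, fP_some] at hpos hlt ⊢
          rcases fx_cases v h x with c | ⟨t, ht0, hth, c⟩ | c
          · rw [fx_of_le hh' c] at hpos
            exact absurd hpos (lt_irrefl _)
          · rw [fx_of_is c ht0.le hth.le]
            exact c
          · rw [fx_of_ge hh' c] at hlt
            exact absurd hlt (lt_irrefl _)
        obtain ⟨h', e⟩ := hT.map_some x η hxy
        rw [e]
        rcases branch_dichotomy hW hb.ge hγ h20 hxy hxj hpos hlt with hbr | hbr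
        · refine fP_sub_eq_zero_of_same_branch hW hc hh hγ h20 h' hxy (hT.is_map hxj) hxj hpos
            ?_ hbr
          have := inertiaLike_gt_map hT hbr
          rwa [map_add, map_div₀, map_mul, hσγ, map_ofNat] at this
        · have hγ' : (-γ) ^ 2 = 4 * a := by rw [neg_sq, hγ]
          have hbr' : v.Gt (η + -γ * x / 2) j := by
            have e1 : η + -γ * x / 2 = η - γ * x / 2 := by ring
            rw [e1]
            exact hbr
          refine fP_sub_eq_zero_of_same_branch hW hc hh hγ' h20 h' hxy (hT.is_map hxj) hxj hpos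
            ?_ hbr'
          have := inertiaLike_gt_map hT hbr'
          rwa [map_add, map_div₀, map_mul, map_neg, hσγ, map_ofNat] at this
    · -- `fP P = h` is impossible for odd `n`
      exfalso
      rw [← hj, heq] at hk
      have hh0 : h ≠ 0 := hh.ne'
      have : (n : ℚ) = 2 * k := by
        have : h * (n : ℚ) = h * (2 * k) := by linarith
        exact mul_left_cancel₀ hh0 this
      have hZ : (n : ℤ) = 2 * k := by exact_mod_cast this
      obtain ⟨m, hm⟩ := hodd
      omega
  · -- `P` in the identity component: so is `T P`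
    have hTP : fP v h (T P) = 0 := by
      rw [mz2e_fP_map hT.map_some hT.ord_map P, ← hj, ← hzero]
    exact (fP_add_sub_eq_zero hW hc hb hh h2 h20 hTP (by rw [← hj, ← hzero])).2

omit hb hh h2 in
/-- a square root of `4 a` is fixed by an inertia-like `σ` when `2` is a unit -/
theorem mz2e_map_sqrt_of_is_two {σ : K →+* K} {T : W.toAffine.Point →+ W.toAffine.Point}
    (hT : InertiaLike v W σ T) (h2u : v.Is (2 : K) 0) (hσa : σ a = a) {γ : K}
    (hγ : γ ^ 2 = 4 * a) : σ γ = γ := by
  have hγi : v.Is γ 0 := QVal.is_zero_of_sq hγ hc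
  have h1 : (σ γ) ^ 2 = γ ^ 2 := by rw [← map_pow, hγ, map_mul, map_ofNat, hσa]
  have : (σ γ - γ) * (σ γ + γ) = 0 := by linear_combination h1
  rcases mul_eq_zero.mp this with h0 | h0
  · exact sub_eq_zero.mp h0
  · exfalso
    have hneg : σ γ = -γ := by linear_combination h0
    have hin := hT.inert γ hγi.ge
    have e2 : σ γ - γ = -(2 * γ) := by rw [hneg]; ring
    rw [e2] at hin
    have : v.Is (-(2 * γ)) 0 := by
      have := (h2u.mul hγi).neg
      simpa using this
    exact this.not_gt hin le_rfl

/-- a square root of `4 a` is fixed by an inertia-like `σ` when `2` is a unit or `a - 1/4` is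
integral -/
theorem mz2e_map_sqrt {σ : K →+* K} {T : W.toAffine.Point →+ W.toAffine.Point}
    (hT : InertiaLike v W σ T) (ha₂ : v.Is (2 : K) 0 ∨ v.Ge (a - 1 / 4) 0) (hσa : σ a = a) {γ : K}
    (hγ : γ ^ 2 = 4 * a) : σ γ = γ := by
  by_cases h2u : v.Is (2 : K) 0
  · exact mz2e_map_sqrt_of_is_two hW hc h20 hT h2u hσa hγ
  · have h2gt : v.Gt (2 : K) 0 := by
      rcases h2 with h0 | h0
      · exact absurd h0 h20
      · rcases h0.lt_or_eq with hlt | heq
        · exact Or.inr hlt
        · exact absurd ⟨h20, heq.symm⟩ h2u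
    exact map_sqrt_eq hW hc (ha₂.resolve_left h2u) hb hh h2gt h20 hT hσa hγ

end Abs

end Fermat.Agent.Mazur2
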