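/-
ISOG / (P3), the local data at a place of multiplicative reduction and the subgroup `T0` (helper9).

`W : WeierstrassCurve ℤ` with RATIONAL two-torsion (`LreRoots (s58E W) e₁ e₂ e₃`, `e_i : ℚ`), `A` a
valuation subring of `ℚ̄` over a prime `ℓ ∣ Δ`, `ℓ ∤ c₄`.

* `Mz2eData W A` : the prime, a `ℚ`-valued valuation `v` for `A`, an ordering of the roots with
  `e₁ ≡ e₂` (the node);
* `mz2eL d` : the Legendre form `lreVC (s58E W) e₁ • s58E W` over `ℚ`; `mz2ePhi d` : the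
  Galois-equivariant transfer `E(ℚ̄) ≃+ L(ℚ̄)`;
* `mz2eT0d d` : the identity component, pulled back from the Legendre form;
* `mz2e_T0d_iff_ns`, `mz2e_T0d_iff_inZero` : the dictionary for torsion points of order prime
  to `ℓ`.
-/
import Fermat.Agent.Lib.Mazur2.Comp.Leg
import Fermat.Agent.Lib.Mazur2.Comp.Dict
import Fermat.Agent.Lib.Mazur2.Comp.Gal

set_option autoImplicit false
set_option linter.unusedSectionVars false
set_option linter.unusedVariables false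

open WeierstrassCurve WeierstrassCurve.Affine
open scoped WeierstrassCurve.Affine

namespace Fermat.Agent.Mazur2

open Fermat.Agent.S05Lib Fermat.Agent.LR Fermat.Agent.X015 Fermat.Agent.S13Lib.AtTwo
  Fermat.Agent.S58 Fermat.Agent.Mazur

local notation "Qb" => AlgebraicClosure ℚ
local notation "GQ" => (AlgebraicClosure ℚ ≃ₐ[ℚ] AlgebraicClosure ℚ)

/-- the discriminant in terms of the roots of the two-torsion polynomial -/
theorem mz2e_disc_of_roots {F : Type*} [Field F] (h2 : (2 : F) ≠ 0) {E : WeierstrassCurve F}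
    {e₁ e₂ e₃ : F} (hr : LreRoots E e₁ e₂ e₃) :
    E.Δ = 16 * ((e₁ - e₂) * (e₁ - e₃) * (e₂ - e₃)) ^ 2 := by
  obtain ⟨hb₂, hb₄, hb₆⟩ := hr
  have h4 : (4 : F) ≠ 0 := by
    have : (4 : F) = 2 * 2 := by norm_num
    rw [this]
    exact mul_ne_zero h2 h2
  have hb₈ : E.b₈ = (E.b₂ * E.b₆ - E.b₄ ^ 2) / 4 := by
    rw [eq_div_iff h4]
    linear_combination E.b_relation
  rw [WeierstrassCurve.Δ, hb₈, hb₂, hb₄, hb₆]
  field_simp
  ring

theorem mz2e_isLeg_map {F F' : Type*} [Field F] [Field F'] {E : WeierstrassCurve F} {a b : F}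
    (hE : IsLeg E a b) (f : F →+* F') : IsLeg (E.map f) (f a) (f b) where
  a₁ := by rw [WeierstrassCurve.map_a₁, hE.a₁, map_zero]
  a₂ := by rw [WeierstrassCurve.map_a₂, hE.a₂]
  a₃ := by rw [WeierstrassCurve.map_a₃, hE.a₃, map_zero]
  a₄ := by rw [WeierstrassCurve.map_a₄, hE.a₄]
  a₆ := by rw [WeierstrassCurve.map_a₆, hE.a₆, map_zero]

/-- **the local data at a place of multiplicative reduction** of a curve with rational
two-torsion -/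
structure Mz2eData (W : WeierstrassCurve ℤ) (A : ValuationSubring Qb) where
  /-- the residue characteristic -/
  ℓ : ℕ
  hℓ : ℓ.Prime
  hA : A.LiesOverPrime ℓ
  hΔ0 : W.Δ ≠ 0
  hbad : (ℓ : ℤ) ∣ W.Δ
  hc₄ : ¬ (ℓ : ℤ) ∣ W.c₄
  /-- a `ℚ`-valued valuation with valuation ring `A` -/
  v : QVal Qb
  hv : QValFor A ℓ v
  /-- the roots of the two-torsion polynomial; `e₁ ≡ e₂` -/
  e₁ : ℚ
  e₂ : ℚ
  e₃ : ℚ
  hr : LreRoots (s58E W) e₁ e₂ e₃
  hnode : v.Gt (4 * ((e₁ : Qb) - (e₂ : Qb))) 0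
  ha₂ : v.Is (2 : Qb) 0 ∨
    v.Ge (-(((e₂ : Qb) - (e₁ : Qb)) + ((e₃ : Qb) - (e₁ : Qb))) - 1 / 4) 0

section Data

variable {W : WeierstrassCurve ℤ} {A : ValuationSubring Qb} (d : Mz2eData W A)

theorem mz2e_lreVal : LreVal A d.v := ⟨fun x => d.hv.mem_iff x⟩

theorem mz2e_two_ge : d.v.Ge (2 : Qb) 0 :=
  (mz2e_lreVal d).ge_of_mem (s58l_ofNat_mem A 2)

theorem mz2e_rootsQb :
    LreRoots ((s58E W)⁄Qb) (d.e₁ : Qb) (d.e₂ : Qb) (d.e₃ : Qb) := by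
  have h := d.hr.map (algebraMap ℚ Qb)
  rwa [eq_ratCast, eq_ratCast, eq_ratCast] at h

/-- half the order of the discriminant -/
noncomputable def mz2eH : ℚ := d.v.ord (((W.Δ : ℤ)) : Qb) / 2

include d in
theorem mz2e_Δ_ne : (((W.Δ : ℤ)) : Qb) ≠ 0 := by exact_mod_cast d.hΔ0

theorem mz2e_Δ_gt : d.v.Gt ((s58E W)⁄Qb).Δ 0 := by
  rw [s58l_Δ_eq]
  exact (mz2e_lreVal d).gt_intCast_of_dvd d.hA d.hbad

theorem mz2e_h_pos : 0 < mz2eH d := by
  have h := mz2e_Δ_gt d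
  rw [s58l_Δ_eq] at h
  have := h.resolve_left (mz2e_Δ_ne d)
  unfold mz2eH
  linarith

theorem mz2e_hc_hb :
    d.v.Is (4 * (-(((d.e₂ : Qb) - (d.e₁ : Qb)) + ((d.e₃ : Qb) - (d.e₁ : Qb))))) 0 ∧
      d.v.Is (((d.e₂ : Qb) - (d.e₁ : Qb)) * ((d.e₃ : Qb) - (d.e₁ : Qb))) (mz2eH d) := by
  have h20 : (2 : Qb) ≠ 0 := two_ne_zero
  have hΔi : d.v.Is ((s58E W)⁄Qb).Δ (2 * mz2eH d) := by
    rw [s58l_Δ_eq]
    exact ⟨mz2e_Δ_ne d, by unfold mz2eH; ring⟩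
  have hc₄is : d.v.Is ((s58E W)⁄Qb).c₄ 0 := by
    rw [s58l_c₄_eq]
    exact (mz2e_lreVal d).is_intCast d.hℓ d.hA d.hc₄
  exact s58l_leg_val (mz2e_rootsQb d) (mz2e_disc_of_roots h20 (mz2e_rootsQb d))
    (mz2e_two_ge d) h20 hc₄is hΔi d.hnode

/-- the Legendre form over `ℚ` -/
noncomputable abbrev mz2eL : WeierstrassCurve ℚ := lreVC (s58E W) d.e₁ • s58E W

theorem mz2e_isLeg :
    IsLeg ((mz2eL d)⁄Qb) (-(((d.e₂ : Qb) - (d.e₁ : Qb)) + ((d.e₃ : Qb) - (d.e₁ : Qb))))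
      (((d.e₂ : Qb) - (d.e₁ : Qb)) * ((d.e₃ : Qb) - (d.e₁ : Qb))) := by
  have h := mz2e_isLeg_map (lre_isLeg (two_ne_zero : (2 : ℚ) ≠ 0) d.hr) (algebraMap ℚ Qb)
  have e1 : (algebraMap ℚ Qb) (-((d.e₂ - d.e₁) + (d.e₃ - d.e₁))) =
      -(((d.e₂ : Qb) - (d.e₁ : Qb)) + ((d.e₃ : Qb) - (d.e₁ : Qb))) := by
    rw [eq_ratCast]; push_cast; ring
  have e2 : (algebraMap ℚ Qb) ((d.e₂ - d.e₁) * (d.e₃ - d.e₁)) =
      ((d.e₂ : Qb) - (d.e₁ : Qb)) * ((d.e₃ : Qb) - (d.e₁ : Qb)) := by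
    rw [eq_ratCast]; push_cast; ring
  rw [e1, e2] at h
  exact h

/-- the identity component of the Legendre form -/
noncomputable def mz2eZ : AddSubgroup ((mz2eL d)⁄Qb).Point :=
  mz2eZero (mz2e_isLeg d) (mz2e_hc_hb d).1 (mz2e_hc_hb d).2 (mz2e_h_pos d) (mz2e_two_ge d)
    two_ne_zero

/-- the Galois-equivariant transfer to the Legendre form -/
noncomputable def mz2ePhi : ((s58E W)⁄Qb).Point ≃+ ((mz2eL d)⁄Qb).Point :=
  vcPointEquivBaseChange (K := Qb) (s58E W) (lreVC (s58E W) d.e₁)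

/-- **the identity component at `A`**, for the datum `d` -/
noncomputable def mz2eT0d : AddSubgroup ((s58E W)⁄Qb).Point :=
  (mz2eZ d).comap (mz2ePhi d).toAddMonoidHom

theorem mz2e_mem_T0d (Q : ((s58E W)⁄Qb).Point) :
    Q ∈ mz2eT0d d ↔ fP d.v (mz2eH d) (mz2ePhi d Q) = 0 := Iff.rfl

theorem mz2ePhi_apply (Q : ((s58E W)⁄Qb).Point) :
    mz2ePhi d Q = vcPointEquivBaseChange (K := Qb) (s58E W) (lreVC (s58E W) d.e₁) Q := rfl

/-- `fP ∘ φ` on an affine point -/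
theorem mz2e_fP_phi_some {x y : Qb} (h : ((s58E W)⁄Qb).toAffine.Nonsingular x y) :
    fP d.v (mz2eH d) (mz2ePhi d (Point.some x y h)) = 0 ↔ d.v.Le (x - (d.e₁ : Qb)) 0 := by
  obtain ⟨h', e⟩ := vcPointEquivBaseChange_some (K := Qb) (s58E W) (lreVC (s58E W) d.e₁) h
  have hxe : vcXinv ((lreVC (s58E W) d.e₁).map (algebraMap ℚ Qb)) x = x - (d.e₁ : Qb) := by
    simp [vcXinv, lreVC, VariableChange.map]
  rw [mz2ePhi_apply, e, fP_eq_zero_iff (mz2e_h_pos d) h', hxe]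

/-- the transfer is Galois-equivariant -/
theorem mz2e_phi_smul (σ : GQ) (P : ((s58E W)⁄Qb).Point) :
    mz2ePhi d (σ • P) = σ • mz2ePhi d P := by
  rcases P with _ | ⟨x, y, h⟩
  · have : (Point.zero : ((s58E W).toAffine⁄Qb).Point) = 0 := rfl
    have e0 : σ • (0 : ((s58E W).toAffine⁄Qb).Point) = 0 := rfl
    have e0' : σ • (0 : ((mz2eL d).toAffine⁄Qb).Point) = 0 := rfl
    rw [this, e0, _root_.map_zero, e0']
  · obtain ⟨h1, e1⟩ := vcPointEquivBaseChange_some (K := Qb) (s58E W) (lreVC (s58E W) d.e₁) h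
    have h2 : ((s58E W).toAffine⁄Qb).Nonsingular (σ x) (σ y) :=
      ((s58E W).toAffine.baseChange_nonsingular σ.toAlgHom.injective ..).mpr h
    have e2 : σ • (Point.some x y h : ((s58E W).toAffine⁄Qb).Point) =
        Point.some (σ x) (σ y) h2 := rfl
    obtain ⟨h3, e3⟩ := vcPointEquivBaseChange_some (K := Qb) (s58E W) (lreVC (s58E W) d.e₁) h2
    rw [e2, mz2ePhi_apply, mz2ePhi_apply, e3, e1]
    have h4 : ((mz2eL d).toAffine⁄Qb).Nonsingular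
        (σ (vcXinv ((lreVC (s58E W) d.e₁).map (algebraMap ℚ Qb)) x))
        (σ (vcYinv ((lreVC (s58E W) d.e₁).map (algebraMap ℚ Qb)) x y)) :=
      ((mz2eL d).toAffine.baseChange_nonsingular σ.toAlgHom.injective ..).mpr h1
    have e4 : σ • (Point.some _ _ h1 : ((mz2eL d).toAffine⁄Qb).Point) = Point.some _ _ h4 := rfl
    rw [e4]
    simp only [Point.some.injEq]
    exact ⟨(vcXinv_map_algEquiv (lreVC (s58E W) d.e₁) σ x).symm,
      (vcYinv_map_algEquiv (lreVC (s58E W) d.e₁) σ x y).symm⟩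

/-- **the dictionary**, partial-derivative form, for torsion points of order prime to `ℓ` -/
theorem mz2e_T0d_iff_ns {n : ℕ} (hn : ¬ d.ℓ ∣ n) (Q : ((s58E W)⁄Qb).Point) (hQ : n • Q = 0) :
    Q ∈ mz2eT0d d ↔ S58lNs A ((s58E W)⁄Qb) Q := by
  rw [mz2e_mem_T0d]
  rcases Q with _ | ⟨x, y, h⟩
  · constructor
    · intro _
      exact s58lNs_zero A _
    · intro _
      show fP _ _ (mz2ePhi d 0) = 0
      rw [map_zero, fP_zero]
  · obtain ⟨hx, hy⟩ := s58l_integral W d.hΔ0 d.hℓ hn A d.hA h hQ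
    obtain ⟨ha₁, ha₂, ha₃, ha₄, ha₆⟩ := s58l_a_mem W A
    rw [mz2e_fP_phi_some]
    exact (mz2e_ns_iff_le (mz2e_lreVal d) ha₁ ha₂ ha₃ ha₄ (mz2e_rootsQb d) two_ne_zero
      (mz2e_hc_hb d).1 (mz2e_hc_hb d).2 (mz2e_h_pos d) (mz2e_Δ_gt d) h hx hy).symm

/-- for torsion points of order prime to `ℓ`, `InZeroComponentAt` means that one of the partial
derivatives is a unit -/
theorem mz2e_inZero_iff_ns_of_tor (W : WeierstrassCurve ℤ) (hΔ : W.Δ ≠ 0) {ℓ n : ℕ} (hℓ : ℓ.Prime)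
    (hn : ¬ ℓ ∣ n) (A : ValuationSubring Qb) (hA : A.LiesOverPrime ℓ)
    (Q : ((s58E W)⁄Qb).Point) (hQ : n • Q = 0) :
    W.InZeroComponentAt A Q ↔ S58lNs A ((s58E W)⁄Qb) Q := by
  rcases Q with _ | ⟨x, y, h⟩
  · exact ⟨fun _ => s58lNs_zero A _, fun _ => Or.inl rfl⟩
  · obtain ⟨hx, hy⟩ := s58l_integral W hΔ hℓ hn A hA h hQ
    exact mz2e_inZero_iff_ns W A h hx hy

/-- **the dictionary** with the Prelude predicate, for torsion points of order prime to `ℓ` -/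
theorem mz2e_T0d_iff_inZero {n : ℕ} (hn : ¬ d.ℓ ∣ n) (Q : ((s58E W)⁄Qb).Point)
    (hQ : n • Q = 0) : Q ∈ mz2eT0d d ↔ W.InZeroComponentAt A Q := by
  rw [mz2e_T0d_iff_ns d hn Q hQ, mz2e_inZero_iff_ns_of_tor W d.hΔ0 d.hℓ hn A d.hA Q hQ]

end Data

/-- **good reduction**: every torsion point of order prime to `ℓ` has nonsingular reduction -/
theorem mz2e_ns_of_good (W : WeierstrassCurve ℤ) (hΔ : W.Δ ≠ 0) {ℓ n : ℕ} (hℓ : ℓ.Prime)
    (hgood : ¬ (ℓ : ℤ) ∣ W.Δ) (hn : ¬ ℓ ∣ n) (A : ValuationSubring Qb) (hA : A.LiesOverPrime ℓ)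
    (Q : ((s58E W)⁄Qb).Point) (hQ : n • Q = 0) : S58lNs A ((s58E W)⁄Qb) Q := by
  rcases Q with _ | ⟨x, y, h⟩
  · trivial
  · obtain ⟨hx, hy⟩ := s58l_integral W hΔ hℓ hn A hA h hQ
    obtain ⟨ha₁, ha₂, ha₃, ha₄, ha₆⟩ := s58l_a_mem W A
    have hΔ1 : A.valuation ((s58E W)⁄Qb).Δ = 1 := by
      rw [s58l_Δ_eq]
      exact qv_valuation_intCast_eq_one A hℓ hA hgood
    exact s58l_ns_of_good ha₁ ha₂ ha₃ ha₄ hΔ1 h.1 hx hy

end Fermat.Agent.Mazur2
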