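/-
ISOG (track S12/S09), package (P3), the Lagrange step of (T4) (helper7).

* `mz2s_card_le` (abstract): if `card G[p] = p²` and some point of `G[p]` is not in the subgroup `K`,
  then `card (K ⊓ G[p]) ≤ p`;
* `mz2s_zero_small` : on the Legendre form `η² = x³ + a x² + b x` with `ord b = h > 0`,
  `ord (4a) = 0`, `ord p ≤ 0`, the `p`-torsion of the identity component `mz2eZero` has at most `p`
  points (`mz2k_exists_off_of_unit` of helper3 + Lagrange);
* `mz2s_zero_small_of_le_one` : the same with `ord p ≤ 1 ≤ h` (a place over `p`).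
-/
import Mathlib
import Fermat.Agent.Lib.Mazur2.Chain.Group
import Fermat.Agent.Lib.Mazur2.Comp.Leg
import Fermat.Agent.Lib.Mazur2.Comp.Count

set_option autoImplicit false
set_option linter.unusedSectionVars false
set_option linter.unusedVariables false
set_option linter.style.haveILetI false

open WeierstrassCurve WeierstrassCurve.Affine

namespace Fermat.Agent.Mazur2

open Fermat.Agent.S05Lib

/-- **Lagrange**: a subgroup missing a point of `G[p]` meets `G[p]` (of order `p²`) in at most `p`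
points -/
theorem mz2s_card_le {G : Type*} [AddCommGroup G] {p : ℕ} (hp : p.Prime)
    (hcard : Nat.card ↥(mz2cTor G p 1) = p ^ 2) (K : AddSubgroup G)
    (hoff : ∃ x : G, p • x = 0 ∧ x ∉ K) :
    Nat.card ↥(K ⊓ mz2cTor G p 1) ≤ p := by
  obtain ⟨x, hx, hxK⟩ := hoff
  haveI : Finite ↥(mz2cTor G p 1) :=
    Nat.finite_of_card_ne_zero (by rw [hcard]; exact pow_ne_zero _ hp.ne_zero)
  have hle : K ⊓ mz2cTor G p 1 ≤ mz2cTor G p 1 := inf_le_right
  have hdvd : Nat.card ↥(K ⊓ mz2cTor G p 1) ∣ p ^ 2 := by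
    rw [← hcard]
    exact AddSubgroup.card_dvd_of_le hle
  obtain ⟨i, hi, hci⟩ := (Nat.dvd_prime_pow hp).mp hdvd
  have hi2 : i ≠ 2 := by
    rintro rfl
    have heq : K ⊓ mz2cTor G p 1 = mz2cTor G p 1 :=
      AddSubgroup.eq_of_le_of_card_ge hle (by rw [hci, hcard])
    have hxmem : x ∈ K ⊓ mz2cTor G p 1 := by
      rw [heq]
      exact mem_mz2cTor_one.mpr hx
    exact hxK hxmem.1
  rw [hci]
  have hi1 : i ≤ 1 := by omega
  calc p ^ i ≤ p ^ 1 := Nat.pow_le_pow_right hp.pos hi1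
    _ = p := pow_one p

section Leg

variable {K : Type*} [Field K] [DecidableEq K] [IsAlgClosed K] [CharZero K] {v : QVal K}
  {W : WeierstrassCurve K} {a b : K} {h : ℚ}

/-- **(T4)** at a multiplicative place where `p` is a unit: the `p`-torsion of the identity
component has at most `p` points -/
theorem mz2s_zero_small (hW : IsLeg W a b) (hc : v.Is (4 * a) 0) (hb : v.Is b h) (hh : 0 < h)
    (h2 : v.Ge (2 : K) 0) (h20 : (2 : K) ≠ 0) (hb0 : b ≠ 0) (hab : a ^ 2 - 4 * b ≠ 0)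
    {p : ℕ} (hp : p.Prime) (hp3 : 3 ≤ p) (hvp : v.ord (p : K) ≤ 0)
    (hcard : Nat.card ↥(mz2cTor W.toAffine.Point p 1) = p ^ 2) :
    Nat.card ↥(mz2eZero hW hc hb hh h2 h20 ⊓ mz2cTor W.toAffine.Point p 1) ≤ p := by
  have hodd : Odd p := hp.odd_of_ne_two (by omega)
  haveI : Finite ↥(mz2cTor W.toAffine.Point p 1) :=
    Nat.finite_of_card_ne_zero (by rw [hcard]; exact pow_ne_zero _ hp.ne_zero)
  have hfin : Set.Finite {T : W.toAffine.Point | p • T = 0} := by
    have : {T : W.toAffine.Point | p • T = 0} = (mz2cTor W.toAffine.Point p 1 : Set _) := by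
      ext T
      exact mem_mz2cTor_one.symm
    rw [this]
    exact Set.toFinite _
  obtain ⟨T, hT, hTf⟩ := mz2k_exists_off_of_unit (v := v) hW hb0 hab hh hb hodd hp3 hvp
    hfin.toFinset (fun T => by rw [Set.Finite.mem_toFinset]; rfl)
  exact mz2s_card_le hp hcard _ ⟨T, hT, fun hmem => hTf ((mz2e_mem_zero hW hc hb hh h2 h20 T).mp hmem)⟩

/-- **(T4)** at a multiplicative place over `p` with `ord p ≤ 1 ≤ h` -/
theorem mz2s_zero_small_of_le_one (hW : IsLeg W a b) (hc : v.Is (4 * a) 0) (hb : v.Is b h)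
    (hh : 0 < h) (hh1 : 1 ≤ h)
    (h2 : v.Ge (2 : K) 0) (h20 : (2 : K) ≠ 0) (hb0 : b ≠ 0) (hab : a ^ 2 - 4 * b ≠ 0)
    {p : ℕ} (hp : p.Prime) (hp3 : 3 ≤ p) (hvp : v.ord (p : K) ≤ 1)
    (hcard : Nat.card ↥(mz2cTor W.toAffine.Point p 1) = p ^ 2) :
    Nat.card ↥(mz2eZero hW hc hb hh h2 h20 ⊓ mz2cTor W.toAffine.Point p 1) ≤ p := by
  have hodd : Odd p := hp.odd_of_ne_two (by omega)
  haveI : Finite ↥(mz2cTor W.toAffine.Point p 1) :=
    Nat.finite_of_card_ne_zero (by rw [hcard]; exact pow_ne_zero _ hp.ne_zero)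
  have hfin : Set.Finite {T : W.toAffine.Point | p • T = 0} := by
    have : {T : W.toAffine.Point | p • T = 0} = (mz2cTor W.toAffine.Point p 1 : Set _) := by
      ext T
      exact mem_mz2cTor_one.symm
    rw [this]
    exact Set.toFinite _
  obtain ⟨T, hT, hTf⟩ := mz2k_exists_off_of_le_one (v := v) hW hb0 hab hh1 hb hodd hp3 hvp
    hfin.toFinset (fun T => by rw [Set.Finite.mem_toFinset]; rfl)
  exact mz2s_card_le hp hcard _ ⟨T, hT, fun hmem => hTf ((mz2e_mem_zero hW hc hb hh h2 h20 T).mp hmem)⟩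

end Leg

end Fermat.Agent.Mazur2
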