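/-
ISOG / (P3), the subgroup `T0 A` and the `t0_*` fields of `Mz2cInput` (helper9), for any
`W : WeierstrassCurve ℤ`, `Δ ≠ 0`, which has a datum `Mz2eData W A` at every place of bad reduction
(semistable, rational two-torsion).

* `mz2eT0 W A` : `mz2eT0d d` for a chosen datum `d` at `A`, `⊤` if there is none (good places);
* `mz2e_t0_mem_iff` : `Q ∈ mz2eT0 W A ↔ W.InZeroComponentAt A Q` for torsion of order prime to `ℓ`;
* `mz2e_t0_inert` (T2), `mz2e_t0_quot` (T3), `mz2e_t0_small` (T4), `mz2e_t0_frob` (T5).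
-/
import Fermat.Agent.Lib.Mazur2.Comp.Data
import Fermat.Agent.Lib.Mazur2.Comp.Small
import Fermat.Agent.Lib.Mazur2.Frey.FrobCyclo
import Fermat.Agent.Lib.LR.E.Count

set_option autoImplicit false
set_option linter.unusedSectionVars false
set_option linter.unusedVariables false

open WeierstrassCurve WeierstrassCurve.Affine
open scoped WeierstrassCurve.Affine

namespace Fermat.Agent.Mazur2

open Fermat.Agent.S05Lib Fermat.Agent.LR Fermat.Agent.X015 Fermat.Agent.S13Lib.AtTwo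
  Fermat.Agent.S58 Fermat.Agent.Mazur

local notation "Qb" => AlgebraicClosure ℚ
local notation "GQ" => (AlgebraicClosure ℚ ≃ₐ[ℚ] AlgebraicClosure ℚ)

/-- a valuation subring lies over at most one prime -/
theorem mz2e_prime_unique {A : ValuationSubring Qb} {ℓ ℓ' : ℕ} (hℓ : ℓ.Prime) (hℓ' : ℓ'.Prime)
    (hA : A.LiesOverPrime ℓ) (hA' : A.LiesOverPrime ℓ') : ℓ = ℓ' := by
  by_contra hne
  have h1 : ¬ (ℓ : ℤ) ∣ (ℓ' : ℤ) := by
    intro h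
    have h' : ℓ ∣ ℓ' := by exact_mod_cast h
    exact hne ((Nat.prime_dvd_prime_iff_eq hℓ hℓ').mp h')
  have h2 := qv_valuation_intCast_eq_one A hℓ hA h1
  have h3 : A.valuation ((ℓ' : ℕ) : Qb) < 1 := hA'
  rw [Int.cast_natCast] at h2
  rw [h2] at h3
  exact lt_irrefl _ h3

/-- the number of `p`-torsion points -/
theorem mz2e_card_tor (W : WeierstrassCurve ℤ) (hΔ : W.Δ ≠ 0) {p : ℕ} (hp : 0 < p) :
    Nat.card ↥(mz2cTor ((s58E W)⁄Qb).Point p 1) = p ^ 2 := by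
  have hΔQ : ((s58E W)⁄Qb).Δ ≠ 0 := by
    rw [s58l_Δ_eq]
    exact_mod_cast hΔ
  rw [← lre_natCard_torsion ((s58E W)⁄Qb) hΔQ hp]
  exact Nat.card_congr (Equiv.subtypeEquivRight fun x => mem_mz2cTor_one)

section Datum

variable {W : WeierstrassCurve ℤ} {A : ValuationSubring Qb} (d : Mz2eData W A)

/-- (T2) for a datum -/
theorem mz2e_T0d_inert {n : ℕ} (hn : ¬ d.ℓ ∣ n) {σ : GQ} (hσ : σ ∈ A.inertiaSubgroupIn ℚ)
    (x : ((s58E W)⁄Qb).Point) (hx : x ∈ mz2eT0d d) (hxn : n • x = 0) : σ • x = x :=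
  s58l_inertia_fix W d.hΔ0 d.hℓ hn A d.hA hσ x hxn ((mz2e_T0d_iff_ns d hn x hxn).mp hx)

/-- (T3) for a datum -/
theorem mz2e_T0d_quot {n : ℕ} (hodd : Odd n) {σ : GQ} (hσ : σ ∈ A.inertiaSubgroupIn ℚ)
    (x : ((s58E W)⁄Qb).Point) (hxn : n • x = 0) : σ • x - x ∈ mz2eT0d d := by
  rw [mz2e_mem_T0d, map_sub, mz2e_phi_smul]
  have hT := d.hv.inertiaLike (mz2eL d) hσ
  obtain ⟨γ, hγ⟩ := IsAlgClosed.exists_pow_nat_eq
    (4 * (-(((d.e₂ : Qb) - (d.e₁ : Qb)) + ((d.e₃ : Qb) - (d.e₁ : Qb))))) two_pos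
  have hσa : (σ : Qb →+* Qb) (-(((d.e₂ : Qb) - (d.e₁ : Qb)) + ((d.e₃ : Qb) - (d.e₁ : Qb)))) =
      -(((d.e₂ : Qb) - (d.e₁ : Qb)) + ((d.e₃ : Qb) - (d.e₁ : Qb))) := by
    simp only [map_neg, map_add, map_sub, map_ratCast]
  have hσγ := mz2e_map_sqrt (mz2e_isLeg d) (mz2e_hc_hb d).1 (mz2e_hc_hb d).2 (mz2e_h_pos d)
    (mz2e_two_ge d) two_ne_zero hT d.ha₂ hσa hγ
  have hnP : n • mz2ePhi d x = 0 := by rw [← map_nsmul, hxn, map_zero]
  exact mz2e_map_sub_mem (mz2e_isLeg d) (mz2e_hc_hb d).1 (mz2e_hc_hb d).2 (mz2e_h_pos d)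
    (mz2e_two_ge d) two_ne_zero hT hγ hσγ hodd hnP

/-- (T5) for a datum -/
theorem mz2e_T0d_sub_or_add {σ : GQ} (hσ : σ ∈ A.decompositionSubgroup ℚ)
    (x : ((s58E W)⁄Qb).Point) : σ • x - x ∈ mz2eT0d d ∨ σ • x + x ∈ mz2eT0d d := by
  rw [mz2e_mem_T0d, mz2e_mem_T0d, map_sub, map_add, mz2e_phi_smul]
  exact mz2e_sub_or_add (mz2e_isLeg d) (mz2e_hc_hb d).1 (mz2e_hc_hb d).2 (mz2e_h_pos d)
    (mz2e_two_ge d) two_ne_zero (σ := (σ : Qb →+* Qb))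
    (T := Point.map (W' := (mz2eL d).toAffine) σ.toAlgHom)
    (fun x y h => ⟨((mz2eL d).toAffine.baseChange_nonsingular σ.toAlgHom.injective ..).mpr h, rfl⟩)
    (fun z => mz2e_ord_decomp d.hv d.hℓ hσ z) (mz2ePhi d x)

/-- (T4) for a datum -/
theorem mz2e_T0d_small {p : ℕ} (hp : p.Prime) (hp3 : 3 ≤ p) (hℓp : d.ℓ ≠ p) :
    Nat.card ↥(mz2eT0d d ⊓ mz2cTor ((s58E W)⁄Qb).Point p 1) ≤ p := by
  refine mz2s_card_le hp (mz2e_card_tor W d.hΔ0 hp.pos) _ ?_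
  have hodd : Odd p := hp.odd_of_ne_two (by omega)
  have hb0 : ((d.e₂ : Qb) - (d.e₁ : Qb)) * ((d.e₃ : Qb) - (d.e₁ : Qb)) ≠ 0 := (mz2e_hc_hb d).2.1
  have hΔQ : ((s58E W)⁄Qb).Δ ≠ 0 := by
    rw [s58l_Δ_eq]
    exact mz2e_Δ_ne d
  have hab : (-(((d.e₂ : Qb) - (d.e₁ : Qb)) + ((d.e₃ : Qb) - (d.e₁ : Qb)))) ^ 2 -
      4 * (((d.e₂ : Qb) - (d.e₁ : Qb)) * ((d.e₃ : Qb) - (d.e₁ : Qb))) ≠ 0 := by
    have e : (-(((d.e₂ : Qb) - (d.e₁ : Qb)) + ((d.e₃ : Qb) - (d.e₁ : Qb)))) ^ 2 -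
        4 * (((d.e₂ : Qb) - (d.e₁ : Qb)) * ((d.e₃ : Qb) - (d.e₁ : Qb))) =
        ((d.e₂ : Qb) - (d.e₃ : Qb)) ^ 2 := by ring
    rw [e]
    intro h0
    apply hΔQ
    rw [mz2e_disc_of_roots two_ne_zero (mz2e_rootsQb d)]
    have : (d.e₂ : Qb) - (d.e₃ : Qb) = 0 := by
      exact pow_eq_zero_iff (two_ne_zero) |>.mp h0
    rw [this]
    ring
  have hcardL := Fermat.Agent.S13Lib.Torsion.natCard_torsion (mz2e_isLeg d) hb0 hab hp.pos
  have hfinL : Finite {T : ((mz2eL d)⁄Qb).Point // p • T = 0} :=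
    Nat.finite_of_card_ne_zero (by rw [hcardL]; exact pow_ne_zero _ hp.ne_zero)
  have hfin : Set.Finite {T : ((mz2eL d)⁄Qb).Point | p • T = 0} := by
    have : Finite ↑{T : ((mz2eL d)⁄Qb).Point | p • T = 0} := hfinL
    exact Set.toFinite _
  have hvp : d.v.ord ((p : ℕ) : Qb) ≤ 0 := (d.hv.is_prime d.hℓ hp hℓp).2.le
  obtain ⟨T, hT, hTf⟩ := mz2k_exists_off_of_unit (v := d.v) (mz2e_isLeg d) hb0 hab (mz2e_h_pos d)
    (mz2e_hc_hb d).2 hodd hp3 hvp hfin.toFinset (fun T => by rw [Set.Finite.mem_toFinset]; rfl)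
  refine ⟨(mz2ePhi d).symm T, ?_, ?_⟩
  · rw [← map_nsmul, hT, map_zero]
  · intro hmem
    rw [mz2e_mem_T0d, AddEquiv.apply_symm_apply] at hmem
    exact hTf hmem

end Datum

/-- **the subgroup `T0 A`**: the identity component at `A` (`⊤` when there is no datum) -/
noncomputable def mz2eT0 (W : WeierstrassCurve ℤ) (A : ValuationSubring Qb) :
    AddSubgroup ((s58E W)⁄Qb).Point := by
  classical
  exact if h : Nonempty (Mz2eData W A) then mz2eT0d (Classical.choice h) else ⊤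

theorem mz2eT0_of_data {W : WeierstrassCurve ℤ} {A : ValuationSubring Qb}
    (h : Nonempty (Mz2eData W A)) : mz2eT0 W A = mz2eT0d (Classical.choice h) := by
  unfold mz2eT0
  rw [dif_pos h]

theorem mz2eT0_of_not {W : WeierstrassCurve ℤ} {A : ValuationSubring Qb}
    (h : ¬ Nonempty (Mz2eData W A)) : mz2eT0 W A = ⊤ := by
  unfold mz2eT0
  rw [dif_neg h]

section Global

variable (W : WeierstrassCurve ℤ) (hΔ : W.Δ ≠ 0)
  (hdata : ∀ ℓ : ℕ, ℓ.Prime → ∀ A : ValuationSubring Qb, A.LiesOverPrime ℓ →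
    (ℓ : ℤ) ∣ W.Δ → Nonempty (Mz2eData W A))
include hΔ hdata

/-- **the dictionary**: on torsion points of order prime to `ℓ`, `T0 A` is the zero component -/
theorem mz2e_t0_mem_iff {ℓ n : ℕ} (hℓ : ℓ.Prime) (hn : ¬ ℓ ∣ n) (A : ValuationSubring Qb)
    (hA : A.LiesOverPrime ℓ) (Q : ((s58E W)⁄Qb).Point) (hQ : n • Q = 0) :
    Q ∈ mz2eT0 W A ↔ W.InZeroComponentAt A Q := by
  by_cases h : Nonempty (Mz2eData W A)
  · rw [mz2eT0_of_data h]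
    have hℓd : (Classical.choice h).ℓ = ℓ :=
      mz2e_prime_unique (Classical.choice h).hℓ hℓ (Classical.choice h).hA hA
    exact mz2e_T0d_iff_inZero (Classical.choice h) (by rw [hℓd]; exact hn) Q hQ
  · rw [mz2eT0_of_not h]
    have hgood : ¬ (ℓ : ℤ) ∣ W.Δ := fun hbad => h (hdata ℓ hℓ A hA hbad)
    refine ⟨fun _ => ?_, fun _ => AddSubgroup.mem_top _⟩
    exact (mz2e_inZero_iff_ns_of_tor W hΔ hℓ hn A hA Q hQ).mpr
      (mz2e_ns_of_good W hΔ hℓ hgood hn A hA Q hQ)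

/-- **(T2)** -/
theorem mz2e_t0_inert {ℓ n : ℕ} (hℓ : ℓ.Prime) (hn : ¬ ℓ ∣ n) (A : ValuationSubring Qb)
    (hA : A.LiesOverPrime ℓ) {σ : GQ} (hσ : σ ∈ A.inertiaSubgroupIn ℚ)
    (x : ((s58E W)⁄Qb).Point) (hx : x ∈ mz2eT0 W A) (hxn : n • x = 0) : σ • x = x := by
  by_cases h : Nonempty (Mz2eData W A)
  · rw [mz2eT0_of_data h] at hx
    have hℓd : (Classical.choice h).ℓ = ℓ :=
      mz2e_prime_unique (Classical.choice h).hℓ hℓ (Classical.choice h).hA hA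
    exact mz2e_T0d_inert (Classical.choice h) (by rw [hℓd]; exact hn) hσ x hx hxn
  · have hgood : ¬ (ℓ : ℤ) ∣ W.Δ := fun hbad => h (hdata ℓ hℓ A hA hbad)
    exact s58l_inertia_fix W hΔ hℓ hn A hA hσ x hxn (mz2e_ns_of_good W hΔ hℓ hgood hn A hA x hxn)

omit hΔ hdata in
/-- **(T3)** -/
theorem mz2e_t0_quot {n : ℕ} (hodd : Odd n) (A : ValuationSubring Qb) {σ : GQ}
    (hσ : σ ∈ A.inertiaSubgroupIn ℚ) (x : ((s58E W)⁄Qb).Point) (hxn : n • x = 0) :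
    σ • x - x ∈ mz2eT0 W A := by
  by_cases h : Nonempty (Mz2eData W A)
  · rw [mz2eT0_of_data h]
    exact mz2e_T0d_quot (Classical.choice h) hodd hσ x hxn
  · rw [mz2eT0_of_not h]
    exact AddSubgroup.mem_top _

omit hΔ hdata in
/-- **(T4)** -/
theorem mz2e_t0_small {ℓ p : ℕ} (hℓ : ℓ.Prime) (hp : p.Prime) (hp3 : 3 ≤ p) (hℓp : ℓ ≠ p)
    (A : ValuationSubring Qb) (hA : A.LiesOverPrime ℓ) :
    mz2eT0 W A = ⊤ ∨ Nat.card ↥(mz2eT0 W A ⊓ mz2cTor ((s58E W)⁄Qb).Point p 1) ≤ p := by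
  by_cases h : Nonempty (Mz2eData W A)
  · right
    rw [mz2eT0_of_data h]
    have hℓd : (Classical.choice h).ℓ = ℓ :=
      mz2e_prime_unique (Classical.choice h).hℓ hℓ (Classical.choice h).hA hA
    exact mz2e_T0d_small (Classical.choice h) hp hp3 (by rw [hℓd]; exact hℓp)
  · exact Or.inl (mz2eT0_of_not h)

omit hΔ hdata in
/-- **(T5)** -/
theorem mz2e_t0_frob {r p : ℕ} [Fact p.Prime] (hr : r.Prime) (hrp : r ≠ p)
    (A : ValuationSubring Qb) (hA : A.LiesOverPrime r) :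
    ∃ σ : GQ, ((ExtCitation.cycloExp p σ : ℕ) : ZMod p) = (r : ZMod p) ∧
      ∀ x : ((s58E W)⁄Qb).Point, σ • x - x ∈ mz2eT0 W A ∨ σ • x + x ∈ mz2eT0 W A := by
  obtain ⟨σ, -, hσD, hσc⟩ := mz2g_exists_frob_cyclo (p := p) hr hrp A hA
  refine ⟨σ, hσc, fun x => ?_⟩
  by_cases h : Nonempty (Mz2eData W A)
  · rw [mz2eT0_of_data h]
    exact mz2e_T0d_sub_or_add (Classical.choice h) hσD x
  · rw [mz2eT0_of_not h]
    exact Or.inl (AddSubgroup.mem_top _)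

end Global

end Fermat.Agent.Mazur2
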